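import Mathlib.RingTheory.MvPowerSeries.Expand
import Mathlib.RingTheory.MvPowerSeries.Order
import Mathlib.RingTheory.PowerSeries.Substitution
import Mathlib.RingTheory.Jacobson.Ideal
import Mathlib.Algebra.CharP.Frobenius
import Mathlib.Algebra.CharP.Basic

/-!
# The functional equation of Lubin and Tate

For `f, g ≡ π X` in degree one and `≡ X ^ q` modulo `π` there is exactly one series in finitely
many variables with given linear part which carries `g` to `f`.
-/

set_option autoImplicit false

noncomputable section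

open MvPowerSeries Finsupp

namespace Fermat.Agent.LubinTate

variable {O : Type*} [CommRing O] {π : O} {q : ℕ}

/-- The hypotheses of Lubin and Tate on the base ring, satisfied by the integers of a local
field. -/
structure IsLubinTateBase (π : O) (q : ℕ) : Prop where
  regular : ∀ a, π * a = 0 → a = 0
  mem_jacobson : π ∈ Ideal.jacobson (⊥ : Ideal O)
  exists_prime_pow : ∃ p r : ℕ, p.Prime ∧ 1 ≤ r ∧ q = p ^ r ∧ (p : O) ∈ Ideal.span {π}
  pow_sub_self : ∀ a : O, a ^ q - a ∈ Ideal.span {π}

theorem IsLubinTateBase.two_le (hO : IsLubinTateBase π q) : 2 ≤ q := by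
  obtain ⟨p, r, hp, hr, rfl, -⟩ := hO.exists_prime_pow
  exact hp.two_le.trans (Nat.le_self_pow (by omega) p)

theorem IsLubinTateBase.cancel (hO : IsLubinTateBase π q) {a b : O} (h : π * a = π * b) : a = b :=
  sub_eq_zero.1 (hO.regular _ (by rw [mul_sub, h, sub_self]))

theorem IsLubinTateBase.isUnit_one_sub_pow (hO : IsLubinTateBase π q) {n : ℕ} (hn : 2 ≤ n) :
    IsUnit (1 - π ^ (n - 1)) := by
  refine Ideal.isUnit_of_sub_one_mem_jacobson_bot _ ?_
  rw [sub_sub_cancel_left]
  exact neg_mem (Ideal.pow_mem_of_mem _ hO.mem_jacobson _ (by omega))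

/-- A series of Lubin and Tate for `π` and `q`. -/
structure IsLTSeries (π : O) (q : ℕ) (f : PowerSeries O) : Prop where
  constantCoeff_eq : f.constantCoeff = 0
  coeff_one_eq : f.coeff 1 = π
  congr_frobenius : ∀ n, f.coeff n - (if n = q then 1 else 0) ∈ Ideal.span {π}

variable {σ : Type*} [Finite σ] {f g : PowerSeries O}

/-- `g` at each variable. -/
def atVars (g : PowerSeries O) : σ → MvPowerSeries σ O := fun i => PowerSeries.subst (X i) g

/-- The defect of `φ` in the functional equation. -/
def defect (f g : PowerSeries O) (φ : MvPowerSeries σ O) : MvPowerSeries σ O :=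
  PowerSeries.subst φ f - φ.subst (atVars g)

omit [Finite σ] in
theorem constantCoeff_atVars (hg : g.constantCoeff = 0) (i : σ) :
    (atVars g i).constantCoeff = 0 :=
  PowerSeries.constantCoeff_subst_eq_zero (constantCoeff_X i) g hg

theorem hasSubst_atVars (hg : g.constantCoeff = 0) : HasSubst (atVars (σ := σ) g) :=
  hasSubst_of_constantCoeff_zero (constantCoeff_atVars hg)

omit [Finite σ] in
theorem atVars_eq (hg : g.constantCoeff = 0) (i : σ) : atVars g i =
    X i * PowerSeries.subst (X i) (PowerSeries.mk fun n => g.coeff (n + 1)) := by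
  have hX : PowerSeries.HasSubst (X i : MvPowerSeries σ O) :=
    PowerSeries.HasSubst.of_constantCoeff_zero (constantCoeff_X i)
  conv_lhs => rw [atVars, g.eq_X_mul_shift_add_const, hg, map_zero, add_zero]
  rw [← PowerSeries.coe_substAlgHom hX, map_mul, PowerSeries.substAlgHom_X]

omit [Finite σ] in
open Classical in
/-- Coefficients of monomials in `g` at the variables. -/
theorem coeff_prod_atVars (hg : g.constantCoeff = 0) {e d : σ →₀ ℕ}
    (h : degree e ≤ degree d) :
    coeff e (d.prod fun s m => atVars g s ^ m) =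
      if d = e then g.coeff 1 ^ degree d else 0 := by
  classical
  set H : σ → MvPowerSeries σ O := fun i =>
    PowerSeries.subst (X i) (PowerSeries.mk fun n => g.coeff (n + 1))
  have hH : ∀ i, (H i).constantCoeff = g.coeff 1 := fun i => by
    rw [PowerSeries.constantCoeff_subst (PowerSeries.HasSubst.of_constantCoeff_zero
      (constantCoeff_X i)), finsum_eq_single _ 0]
    · simp
    · intro m hm; simp [constantCoeff_X, hm]
  have hprod : (d.prod fun s m => atVars g s ^ m) =
      monomial d (1 : O) * d.prod fun s m => H s ^ m := by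
    rw [monomial_one_eq, ← Finsupp.prod_mul]
    refine Finsupp.prod_congr fun s _ => ?_
    rw [atVars_eq hg, mul_pow]
  rw [hprod, coeff_monomial_mul]
  by_cases hde : d = e
  · subst hde
    rw [if_pos le_rfl, if_pos rfl, one_mul, tsub_self, coeff_zero_eq_constantCoeff_apply,
      map_finsuppProd]
    simp only [map_pow, hH]
    rw [Finsupp.prod, Finset.prod_pow_eq_pow_sum, Finsupp.degree_apply]
  · rw [if_neg hde, if_neg]
    intro hle
    obtain ⟨c, rfl⟩ := exists_add_of_le hle
    rw [map_add] at h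
    have hc : c = 0 := (Finsupp.degree_eq_zero_iff c).1 (by omega)
    exact hde (by rw [hc, add_zero])

omit [Finite σ] in
theorem le_order_pow_sub {n : ℕ} {φ δ : MvPowerSeries σ O} (hφ : φ.constantCoeff = 0)
    (hn : 1 ≤ n) (hδ : (n : ℕ∞) ≤ δ.order) {d : ℕ} (hd : 2 ≤ d) :
    ((n + 1 : ℕ) : ℕ∞) ≤ ((φ + δ) ^ d - φ ^ d).order := by
  have hδ0 : δ.constantCoeff = 0 :=
    one_le_order_iff_constCoeff_eq_zero.1 (le_trans (by exact_mod_cast hn) hδ)
  have h1 : 1 ≤ φ.order := one_le_order_iff_constCoeff_eq_zero.2 hφ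
  have h1' : 1 ≤ (φ + δ).order :=
    one_le_order_iff_constCoeff_eq_zero.2 (by rw [map_add, hφ, hδ0, add_zero])
  rw [Nat.cast_add, Nat.cast_one]
  induction d, hd using Nat.le_induction with
  | base =>
    rw [show (φ + δ) ^ 2 - φ ^ 2 = δ * (φ + δ) + δ * φ by ring]
    exact le_trans (le_min ((add_le_add hδ h1').trans le_order_mul)
      ((add_le_add hδ h1).trans le_order_mul)) min_order_le_add
  | succ d hd ih =>
    rw [show (φ + δ) ^ (d + 1) - φ ^ (d + 1) =
      ((φ + δ) ^ d - φ ^ d) * (φ + δ) + δ * φ ^ d by ring]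
    refine le_trans (le_min ?_ ?_) min_order_le_add
    · exact (ih.trans le_self_add).trans le_order_mul
    · refine (add_le_add hδ ?_).trans le_order_mul
      exact le_trans (by exact_mod_cast (by omega : 1 ≤ d))
        (le_order_pow_of_constantCoeff_eq_zero d hφ)

/-- Perturbation of the defect. -/
theorem coeff_defect_add (hf : f.coeff 1 = π) (hg0 : g.constantCoeff = 0) (hg : g.coeff 1 = π)
    {φ δ : MvPowerSeries σ O} (hφ : φ.constantCoeff = 0) {n : ℕ} (hn : 1 ≤ n)
    (hδ : (n : ℕ∞) ≤ δ.order) {e : σ →₀ ℕ} (he : degree e ≤ n) :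
    coeff e (defect f g (φ + δ)) = coeff e (defect f g φ) + (π - π ^ n) * coeff e δ := by
  classical
  have hδ0 : δ.constantCoeff = 0 :=
    one_le_order_iff_constCoeff_eq_zero.1 (le_trans (by exact_mod_cast hn) hδ)
  have hs := PowerSeries.HasSubst.of_constantCoeff_zero hφ
  have hs' : PowerSeries.HasSubst (φ + δ) :=
    PowerSeries.HasSubst.of_constantCoeff_zero (by rw [map_add, hφ, hδ0, add_zero])
  have hleft : coeff e (PowerSeries.subst (φ + δ) f) - coeff e (PowerSeries.subst φ f) =
      π * coeff e δ := by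
    rw [PowerSeries.coeff_subst hs', PowerSeries.coeff_subst hs,
      ← finsum_sub_distrib (PowerSeries.coeff_subst_finite hs' f e)
        (PowerSeries.coeff_subst_finite hs f e), finsum_eq_single _ 1]
    · rw [pow_one, pow_one, map_add, hf, smul_eq_mul, smul_eq_mul]; ring
    · intro d hd
      rw [← smul_sub, ← map_sub]
      rcases (by omega : d = 0 ∨ 2 ≤ d) with rfl | hd2
      · simp
      · rw [coeff_of_lt_order (lt_of_lt_of_le (by exact_mod_cast Nat.lt_succ_of_le he)
          (le_order_pow_sub hφ hn hδ hd2)), smul_zero]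
  have hright : coeff e (δ.subst (atVars g)) = π ^ n * coeff e δ := by
    rw [coeff_subst (hasSubst_atVars hg0), finsum_eq_single _ e]
    · rw [coeff_prod_atVars hg0 le_rfl, if_pos rfl, hg, smul_eq_mul]
      rcases Nat.lt_or_ge (degree e) n with h | h
      · rw [coeff_of_lt_order (lt_of_lt_of_le (by exact_mod_cast h) hδ), zero_mul, mul_zero]
      · rw [le_antisymm he h, mul_comm]
    · intro d hd
      rcases Nat.lt_or_ge (degree d) n with h | h
      · rw [coeff_of_lt_order (lt_of_lt_of_le (by exact_mod_cast h) hδ), zero_smul]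
      · rw [coeff_prod_atVars hg0 (he.trans h), if_neg hd, smul_zero]
  simp only [defect, map_sub, subst_add (hasSubst_atVars hg0), map_add, hright]
  linear_combination hleft

omit [Finite σ] in
theorem map_subst_eq_pow {k : Type*} [CommRing k] (ρ : O →+* k) (hf : IsLTSeries π q f)
    (hρ : ρ π = 0) (φ : MvPowerSeries σ O) (hφ : φ.constantCoeff = 0) :
    (PowerSeries.subst φ f).map ρ = (φ.map ρ) ^ q := by
  have hs : PowerSeries.HasSubst φ := PowerSeries.HasSubst.of_constantCoeff_zero hφ
  have hmap : PowerSeries.map ρ f = PowerSeries.X ^ q := PowerSeries.ext fun n => by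
    obtain ⟨c, hc⟩ := Ideal.mem_span_singleton'.1 (hf.congr_frobenius n)
    rw [PowerSeries.coeff_map, PowerSeries.coeff_X_pow, ← sub_add_cancel (f.coeff n)
      (if n = q then 1 else 0), ← hc, map_add, map_mul, hρ, mul_zero, zero_add]
    split_ifs <;> simp
  rw [PowerSeries.map_subst hs, hmap, PowerSeries.subst_pow, PowerSeries.subst_X]
  all_goals
    refine PowerSeries.HasSubst.of_constantCoeff_zero ?_
    rw [constantCoeff_map, hφ, map_zero]

/-- The defect vanishes modulo `π`. -/
theorem dvd_coeff_defect (hO : IsLubinTateBase π q) (hf : IsLTSeries π q f)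
    (hg : IsLTSeries π q g) {φ : MvPowerSeries σ O} (hφ : φ.constantCoeff = 0) (e : σ →₀ ℕ) :
    coeff e (defect f g φ) ∈ Ideal.span {π} := by
  obtain ⟨p, r, hp, -, hq, hpπ⟩ := hO.exists_prime_pow
  rw [← Ideal.Quotient.eq_zero_iff_mem, ← coeff_map]
  set ρ := Ideal.Quotient.mk (Ideal.span {π})
  rcases subsingleton_or_nontrivial (O ⧸ Ideal.span {π}) with h | h
  · exact Subsingleton.elim _ _
  have := Fact.mk hp
  have : CharP (O ⧸ Ideal.span {π}) p := (CharP.charP_iff_prime_eq_zero hp).2 (by
    rw [← map_natCast ρ]; exact Ideal.Quotient.eq_zero_iff_mem.2 hpπ)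
  have : ExpChar (O ⧸ Ideal.span {π}) p := .prime hp
  have hρ : ρ π = 0 := Ideal.Quotient.eq_zero_iff_mem.2 (Ideal.mem_span_singleton_self π)
  rw [defect, map_sub, map_subst_eq_pow ρ hf hρ φ hφ,
    map_subst (hasSubst_atVars hg.constantCoeff_eq)]
  have hvars : (fun i => (atVars g i).map ρ) = fun i : σ => (X i) ^ q := funext fun i => by
    rw [atVars, map_subst_eq_pow ρ hg hρ _ (constantCoeff_X i), map_X]
  have hq0 : q ≠ 0 := by have := hO.two_le; omega
  have hid : iterateFrobenius (O ⧸ Ideal.span {π}) p r = RingHom.id _ := RingHom.ext fun z => by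
    obtain ⟨a, rfl⟩ := Ideal.Quotient.mk_surjective z
    rw [iterateFrobenius_def, ← hq, RingHom.id_apply, ← map_pow, Ideal.Quotient.eq]
    exact hO.pow_sub_self a
  have hexp := map_iterateFrobenius_expand p hp.ne_zero (φ.map ρ) r
  rw [hid, map_id, RingHom.id_apply, expand, coe_substAlgHom] at hexp
  rw [hvars, hq, hexp, sub_self, map_zero]

variable (hO : IsLubinTateBase π q) (hf : IsLTSeries π q f) (hg : IsLTSeries π q g)

include hO hf hg in
/-- Correct the terms of one degree. -/
theorem exists_correction {φ : MvPowerSeries σ O} (hφ : φ.constantCoeff = 0) {n : ℕ}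
    (hn : 2 ≤ n) (h : ∀ e, degree e < n → coeff e (defect f g φ) = 0) :
    ∃ δ : MvPowerSeries σ O, (n : ℕ∞) ≤ δ.order ∧
      ∀ e, degree e ≤ n → coeff e (defect f g (φ + δ)) = 0 := by
  classical
  choose c hc using fun e => Ideal.mem_span_singleton'.1 (dvd_coeff_defect hO hf hg hφ e)
  obtain ⟨u, hu⟩ := hO.isUnit_one_sub_pow hn
  set δ : MvPowerSeries σ O := fun e => if degree e = n then -(↑u⁻¹ * c e) else 0
  have hδ : ∀ e, coeff e δ = if degree e = n then -(↑u⁻¹ * c e) else 0 := fun e => rfl
  have hord : (n : ℕ∞) ≤ δ.order := nat_le_order fun e he => by rw [hδ, if_neg he.ne]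
  refine ⟨δ, hord, fun e he => ?_⟩
  rw [coeff_defect_add hf.coeff_one_eq hg.constantCoeff_eq hg.coeff_one_eq hφ (by omega) hord he,
    hδ]
  split_ifs with h'
  · have hp : π - π ^ n = π * u := by
      rw [hu, mul_sub, mul_one, ← pow_succ', Nat.sub_add_cancel (by omega)]
    rw [← hc e, hp, mul_neg, mul_assoc, Units.mul_inv_cancel_left, mul_comm, ← sub_eq_add_neg,
      sub_self]
  · rw [mul_zero, add_zero, h e (lt_of_le_of_ne he h')]

include hO hf hg in
/-- **The lemma of Lubin and Tate**. -/
theorem existsUnique_intertwiner (a : σ → O) :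
    ∃! φ : MvPowerSeries σ O, φ.constantCoeff = 0 ∧ (∀ i, coeff (single i 1) φ = a i) ∧
      PowerSeries.subst φ f = φ.subst (atVars g) := by
  classical
  have hlin : ∀ {χ : MvPowerSeries σ O}, χ.constantCoeff = 0 →
      ∀ e, degree e ≤ 1 → coeff e (defect f g χ) = 0 := fun {χ} hχ e he => by
    have h0 : defect f g (0 : MvPowerSeries σ O) = 0 := by
      rw [defect, PowerSeries.subst, show (fun _ : Unit => (0 : MvPowerSeries σ O)) = 0 from rfl,
        subst_zero_of_constantCoeff_zero (f := f) hf.constantCoeff_eq,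
        ← coe_substAlgHom (hasSubst_atVars hg.constantCoeff_eq), map_zero, sub_zero]
    have := coeff_defect_add hf.coeff_one_eq hg.constantCoeff_eq hg.coeff_one_eq
      (map_zero (constantCoeff (σ := σ) (R := O))) le_rfl
      (show ((1 : ℕ) : ℕ∞) ≤ χ.order by
        exact_mod_cast one_le_order_iff_constCoeff_eq_zero.2 hχ) he
    simpa [h0] using this
  set φ₁ : MvPowerSeries σ O := fun e => ∑ᶠ i : σ, if e = single i 1 then a i else 0
  have hφ₁ : ∀ e, coeff e φ₁ = ∑ᶠ i : σ, if e = single i 1 then a i else 0 := fun e => rfl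
  have hφ₁i : ∀ i, coeff (single i 1) φ₁ = a i := fun i => by
    rw [hφ₁, finsum_eq_single _ i fun j hj => if_neg ((single_left_inj one_ne_zero).not.2 hj.symm),
      if_pos rfl]
  have hφ₁0 : φ₁.constantCoeff = 0 := by
    rw [← coeff_zero_eq_constantCoeff_apply, hφ₁,
      finsum_eq_zero_of_forall_eq_zero fun i => if_neg (Ne.symm (by simp))]
  -- successive approximations
  have hstep : ∀ (m : ℕ) (φ : MvPowerSeries σ O), φ.constantCoeff = 0 →
      (∀ e, degree e ≤ m + 1 → coeff e (defect f g φ) = 0) →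
      ∃ δ : MvPowerSeries σ O, ((m + 2 : ℕ) : ℕ∞) ≤ δ.order ∧
        ∀ e, degree e ≤ m + 2 → coeff e (defect f g (φ + δ)) = 0 := fun m φ h0 h =>
    exists_correction hO hf hg h0 (by omega) fun e he => h e (by omega)
  choose δ hδord hδ using hstep
  let next : (m : ℕ) → {φ : MvPowerSeries σ O // φ.constantCoeff = 0 ∧
      (∀ e, degree e ≤ m + 1 → coeff e (defect f g φ) = 0)} → MvPowerSeries σ O :=
    fun m φ => φ.1 + δ m φ.1 φ.2.1 φ.2.2
  let seq : (m : ℕ) → {φ : MvPowerSeries σ O // φ.constantCoeff = 0 ∧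
      (∀ e, degree e ≤ m + 1 → coeff e (defect f g φ) = 0)} := fun m => m.rec
    ⟨φ₁, hφ₁0, hlin hφ₁0⟩ fun m φ => ⟨next m φ, by
      refine (map_add constantCoeff φ.1 _).trans ?_
      rw [one_le_order_iff_constCoeff_eq_zero.1
        (le_trans (by exact_mod_cast (by omega : 1 ≤ m + 2)) (hδord m φ.1 φ.2.1 φ.2.2)), add_zero]
      exact φ.2.1,
      hδ m φ.1 φ.2.1 φ.2.2⟩
  have hstab : ∀ e : σ →₀ ℕ, ∀ m, degree e ≤ m + 1 → ∀ m', m ≤ m' →
      coeff e (seq m').1 = coeff e (seq m).1 := by
    intro e m he m' hm'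
    induction m', hm' using Nat.le_induction with
    | base => rfl
    | succ m' hm' ih =>
      show coeff e ((seq m').1 + δ m' _ _ _) = _
      rw [map_add, ih, coeff_of_lt_order (lt_of_lt_of_le
        (by exact_mod_cast (by omega : degree e < m' + 2)) (hδord m' _ _ _)), add_zero]
  set φ : MvPowerSeries σ O := fun e => coeff e (seq (degree e)).1
  have hφ : ∀ e, coeff e φ = coeff e (seq (degree e)).1 := fun e => rfl
  have hagree : ∀ m, ((m + 2 : ℕ) : ℕ∞) ≤ (φ - (seq m).1).order := fun m =>
    nat_le_order fun e he => by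
      rw [map_sub, hφ, sub_eq_zero]
      rcases le_total m (degree e) with h | h
      · exact hstab e m (by omega) _ h
      · exact (hstab e _ (by omega) _ h).symm
  have hsol : PowerSeries.subst φ f = φ.subst (atVars g) := by
    refine sub_eq_zero.1 (MvPowerSeries.ext fun e => ?_)
    show coeff e (defect f g φ) = 0
    have hadd := coeff_defect_add hf.coeff_one_eq hg.constantCoeff_eq hg.coeff_one_eq
      (seq (degree e)).2.1 (n := degree e + 2) (by omega) (hagree (degree e)) (e := e) (by omega)
    rw [add_sub_cancel, (seq (degree e)).2.2 e (by omega), zero_add] at hadd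
    rw [hadd, coeff_of_lt_order (lt_of_lt_of_le
      (by exact_mod_cast (by omega : degree e < degree e + 2))
      (hagree (degree e))), mul_zero]
  refine ⟨φ, ⟨?_, fun i => ?_, hsol⟩, ?_⟩
  · rw [← coeff_zero_eq_constantCoeff_apply, hφ, map_zero, coeff_zero_eq_constantCoeff_apply,
      (seq 0).2.1]
  · rw [hφ, degree_single, hstab _ 0 (by simp) 1 (by omega)]
    exact hφ₁i i
  rintro ψ ⟨hψ0, hψ1, hψ⟩
  suffices ∀ n e, degree e = n → coeff e ψ = coeff e φ from MvPowerSeries.ext fun e => this _ e rfl
  intro n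
  induction n using Nat.strong_induction_on with
  | _ n ih =>
    intro e he
    rcases Nat.lt_or_ge n 2 with hn | hn
    · rcases (by omega : n = 0 ∨ n = 1) with rfl | rfl
      · rw [(Finsupp.degree_eq_zero_iff e).1 he, coeff_zero_eq_constantCoeff_apply, hψ0,
          coeff_zero_eq_constantCoeff_apply]
        rw [← coeff_zero_eq_constantCoeff_apply, hφ, map_zero,
          coeff_zero_eq_constantCoeff_apply, (seq 0).2.1]
      · obtain ⟨i, rfl⟩ : e ∈ Set.range fun i : σ => single i 1 := by
          rw [Finsupp.range_single_one]; exact he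
        rw [hψ1, hφ, degree_single, hstab _ 0 (by simp) 1 (by omega)]
        exact (hφ₁i i).symm
    have hord : (n : ℕ∞) ≤ (ψ - φ).order := nat_le_order fun d hd => by
      rw [map_sub, ih _ hd d rfl, sub_self]
    have hφ0 : φ.constantCoeff = 0 := by
      rw [← coeff_zero_eq_constantCoeff_apply, hφ, map_zero, coeff_zero_eq_constantCoeff_apply,
        (seq 0).2.1]
    have h := coeff_defect_add hf.coeff_one_eq hg.constantCoeff_eq hg.coeff_one_eq hφ0
      (by omega : 1 ≤ n) hord (e := e) he.le
    rw [add_sub_cancel, show defect f g ψ = 0 from sub_eq_zero.2 hψ,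
      show defect f g φ = 0 from sub_eq_zero.2 hsol, map_zero, zero_add, map_sub] at h
    refine sub_eq_zero.1 (((hO.isUnit_one_sub_pow hn).mul_right_eq_zero).1 (hO.regular _ ?_))
    rw [← mul_assoc, mul_sub π 1, mul_one, ← pow_succ', Nat.sub_add_cancel (by omega), ← h]

end Fermat.Agent.LubinTate
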