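import Fermat.Agent.LubinTate.Law
import Mathlib.NumberTheory.Padics.RingHoms
import Mathlib.FieldTheory.Finite.Basic
import Mathlib.RingTheory.PowerSeries.Trunc
import Mathlib.Data.Nat.Choose.Dvd

/-!
# The multiplicative group as a formal group of Lubin and Tate over the `p`-adic integers
-/

set_option autoImplicit false

noncomputable section

open MvPowerSeries Finsupp

namespace Fermat.Agent.LubinTate

variable (p : ℕ) [hp : Fact p.Prime]

theorem isLubinTateBase_padicInt : IsLubinTateBase (p : ℤ_[p]) p where
  regular a h := (mul_eq_zero.1 h).resolve_left (NeZero.ne _)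
  mem_jacobson := by
    rw [IsLocalRing.jacobson_eq_maximalIdeal _ bot_ne_top, PadicInt.maximalIdeal_eq_span_p]
    exact Ideal.mem_span_singleton_self _
  exists_prime_pow := ⟨p, 1, hp.out, le_rfl, (pow_one p).symm, Ideal.mem_span_singleton_self _⟩
  pow_sub_self a := by
    rw [← PadicInt.maximalIdeal_eq_span_p, ← PadicInt.ker_toZMod, RingHom.mem_ker, map_sub, map_pow,
      ZMod.pow_card, sub_self]

/-- The series `(1 + X) ^ p - 1`. -/
def multiplicativeSeries : PowerSeries ℤ_[p] := (1 + PowerSeries.X) ^ p - 1

theorem coeff_multiplicativeSeries (n : ℕ) :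
    (multiplicativeSeries p).coeff n = if n = 0 then 0 else (p.choose n : ℤ_[p]) := by
  have h : multiplicativeSeries p =
      ((((1 + Polynomial.X) ^ p - 1 : Polynomial ℤ_[p])) : PowerSeries ℤ_[p]) := by
    simp [multiplicativeSeries]
  rw [h, Polynomial.coeff_coe, Polynomial.coeff_sub, Polynomial.coeff_one_add_X_pow,
    Polynomial.coeff_one]
  split_ifs with h0
  · subst h0; simp
  · rw [sub_zero]

theorem isLTSeries_multiplicativeSeries :
    IsLTSeries (p : ℤ_[p]) p (multiplicativeSeries p) where
  constantCoeff_eq := by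
    rw [← PowerSeries.coeff_zero_eq_constantCoeff_apply, coeff_multiplicativeSeries, if_pos rfl]
  coeff_one_eq := by rw [coeff_multiplicativeSeries, if_neg one_ne_zero, Nat.choose_one_right]
  congr_frobenius n := by
    rw [coeff_multiplicativeSeries]
    by_cases hn : n = p
    · subst hn
      simp [hp.out.ne_zero]
    · rw [if_neg hn, sub_zero]
      split_ifs with h0
      · exact zero_mem _
      rcases lt_or_gt_of_ne hn with h | h
      · obtain ⟨c, hc⟩ := Nat.Prime.dvd_choose_self hp.out h0 h
        rw [hc, Nat.cast_mul]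
        exact Ideal.mul_mem_right _ _ (Ideal.mem_span_singleton_self _)
      · rw [Nat.choose_eq_zero_of_lt h, Nat.cast_zero]
        exact zero_mem _

/-- The law of Lubin and Tate of `(1 + X) ^ p - 1` is `X + Y + X Y`. -/
theorem law_multiplicative :
    law (isLubinTateBase_padicInt p) (isLTSeries_multiplicativeSeries p) =
      FormalGroup.𝔾ₘ := by
  refine (eq_law _ (isLTSeries_multiplicativeSeries p) _ ?_).symm
  set G := (FormalGroup.𝔾ₘ (R := ℤ_[p])).toPowerSeries with hG
  have hsubst : ∀ {τ : Type} (φ : MvPowerSeries τ ℤ_[p]), φ.constantCoeff = 0 →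
      PowerSeries.subst φ (multiplicativeSeries p) = (1 + φ) ^ p - 1 := fun φ hφ => by
    rw [multiplicativeSeries, ← PowerSeries.coe_substAlgHom
      (PowerSeries.HasSubst.of_constantCoeff_zero hφ), map_sub, map_pow, map_add, map_one,
      PowerSeries.substAlgHom_X]
  have hv := hasSubst_atVars (σ := Fin 2) (isLTSeries_multiplicativeSeries p).constantCoeff_eq
  rw [hsubst G FormalGroup.𝔾ₘ.zero_constantCoeff, hG, FormalGroup.𝔾ₘ_toPowerSeries,
    subst_add hv, subst_add hv, subst_mul hv, subst_X hv, subst_X hv, atVars, atVars,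
    hsubst _ (constantCoeff_X 0), hsubst _ (constantCoeff_X 1)]
  rw [show (1 : MvPowerSeries (Fin 2) ℤ_[p]) + (MvPowerSeries.X 0 + MvPowerSeries.X 1 +
    MvPowerSeries.X 0 * MvPowerSeries.X 1) = (1 + MvPowerSeries.X 0) * (1 + MvPowerSeries.X 1) by
      ring, mul_pow]
  ring

end Fermat.Agent.LubinTate
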