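import Fermat.Agent.LubinTate.Equation
import Mathlib.RingTheory.FormalGroup.Basic

/-!
# The formal groups of Lubin and Tate
-/

set_option autoImplicit false

noncomputable section

open MvPowerSeries Finsupp

namespace Fermat.Agent.LubinTate

variable {O : Type*} [CommRing O] {π : O} {q : ℕ} {σ τ : Type*} [Finite σ] [Finite τ]
  {f g h : PowerSeries O}

/-- `φ` carries `g` to `f`. -/
def Intertwines (f g : PowerSeries O) (φ : MvPowerSeries σ O) : Prop :=
  φ.constantCoeff = 0 ∧ PowerSeries.subst φ f = φ.subst (atVars g)

theorem Intertwines.X (hg : g.constantCoeff = 0) (i : σ) :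
    Intertwines g g (MvPowerSeries.X i : MvPowerSeries σ O) :=
  ⟨constantCoeff_X i, by rw [subst_X (hasSubst_atVars hg)]; rfl⟩

/-- Intertwiners compose. -/
theorem Intertwines.subst {φ : MvPowerSeries σ O} {ψ : σ → MvPowerSeries τ O}
    (hφ : Intertwines f g φ) (hψ : ∀ s, Intertwines g h (ψ s)) (hg : g.constantCoeff = 0)
    (hh : h.constantCoeff = 0) : Intertwines f h (φ.subst ψ) := by
  have hψ' : HasSubst ψ := hasSubst_of_constantCoeff_zero fun s => (hψ s).1
  refine ⟨constantCoeff_subst_eq_zero hψ' (fun s => (hψ s).1) hφ.1, ?_⟩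
  have hφ' : PowerSeries.HasSubst φ := PowerSeries.HasSubst.of_constantCoeff_zero hφ.1
  rw [subst_comp_subst_apply hψ' (hasSubst_atVars hh), PowerSeries.subst,
    ← subst_comp_subst_apply hφ'.const hψ', ← PowerSeries.subst, hφ.2,
    subst_comp_subst_apply (hasSubst_atVars hg) hψ']
  congr 1
  funext s
  rw [← (hψ s).2, atVars, PowerSeries.subst, subst_comp_subst_apply
    (PowerSeries.HasSubst.of_constantCoeff_zero (constantCoeff_X s)).const hψ']
  congr 1
  funext _
  exact subst_X hψ' s

omit [Finite τ] in
/-- The linear part of a composite. -/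
theorem coeff_single_subst [Fintype σ] {φ : MvPowerSeries σ O} {ψ : σ → MvPowerSeries τ O}
    (hψ : ∀ s, (ψ s).constantCoeff = 0) (t : τ) :
    coeff (single t 1) (φ.subst ψ) =
      ∑ s, coeff (single s 1) φ * coeff (single t 1) (ψ s) := by
  classical
  rw [coeff_subst (hasSubst_of_constantCoeff_zero hψ),
    finsum_eq_sum_of_support_subset (s := Finset.univ.image fun s : σ => single s 1) _ ?_,
    Finset.sum_image fun a _ b _ hab => single_left_injective one_ne_zero hab]
  · refine Finset.sum_congr rfl fun s _ => ?_
    rw [Finsupp.prod_single_index (by simp), pow_one, smul_eq_mul]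
  · intro d hd
    rw [Function.mem_support] at hd
    rw [Finset.coe_image, Finset.coe_univ, Set.image_univ, Finsupp.range_single_one]
    by_contra h1
    refine hd ?_
    rcases Nat.lt_or_ge 1 (degree d) with h2 | h2
    · rw [coeff_of_lt_order (f := d.prod fun s e => ψ s ^ e), smul_zero]
      rw [degree_single]
      refine lt_of_lt_of_le ?_ (le_order_prod (fun s => ψ s ^ d s) d.support)
      calc ((1 : ℕ) : ℕ∞) < ((degree d : ℕ) : ℕ∞) := by exact_mod_cast h2
        _ ≤ _ := by
          rw [Finsupp.degree_apply, Nat.cast_sum]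
          exact Finset.sum_le_sum fun s _ => le_order_pow_of_constantCoeff_eq_zero _ (hψ s)
    · have : degree d = 0 := by
        have : degree d ≠ 1 := h1
        omega
      rw [(Finsupp.degree_eq_zero_iff d).1 this, Finsupp.prod_zero_index, coeff_one,
        if_neg (by simp), smul_zero]

variable (hO : IsLubinTateBase π q) (hf : IsLTSeries π q f) (hg : IsLTSeries π q g)

/-- The series with linear part `a` which carries `g` to `f`. -/
def intertwiner (a : σ → O) : MvPowerSeries σ O :=
  (existsUnique_intertwiner hO hf hg a).choose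

theorem intertwines_intertwiner (a : σ → O) : Intertwines f g (intertwiner hO hf hg a) :=
  ⟨(existsUnique_intertwiner hO hf hg a).choose_spec.1.1,
    (existsUnique_intertwiner hO hf hg a).choose_spec.1.2.2⟩

theorem coeff_intertwiner (a : σ → O) (i : σ) :
    coeff (single i 1) (intertwiner hO hf hg a) = a i :=
  (existsUnique_intertwiner hO hf hg a).choose_spec.1.2.1 i

include hO hf hg in
theorem Intertwines.ext {φ ψ : MvPowerSeries σ O} (hφ : Intertwines f g φ)
    (hψ : Intertwines f g ψ) (h : ∀ i, coeff (single i 1) φ = coeff (single i 1) ψ) : φ = ψ :=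
  (existsUnique_intertwiner hO hf hg fun i => coeff (single i 1) ψ).unique
    ⟨hφ.1, h, hφ.2⟩ ⟨hψ.1, fun _ => rfl, hψ.2⟩

theorem eq_intertwiner {φ : MvPowerSeries σ O} (hφ : Intertwines f g φ) {a : σ → O}
    (h : ∀ i, coeff (single i 1) φ = a i) : φ = intertwiner hO hf hg a :=
  hφ.ext hO hf hg (intertwines_intertwiner hO hf hg a) fun i => by rw [h, coeff_intertwiner]

/-- The formal group law of Lubin and Tate. -/
def law : FormalGroup O where
  toPowerSeries := intertwiner hO hf hf fun _ : Fin 2 => 1
  zero_constantCoeff := (intertwines_intertwiner hO hf hf _).1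
  lin_coeff_X := coeff_intertwiner hO hf hf _ 0
  lin_coeff_Y := coeff_intertwiner hO hf hf _ 1
  assoc := by
    classical
    set φ := intertwiner hO hf hf fun _ : Fin 2 => (1 : O)
    have hφ := intertwines_intertwiner hO hf hf fun _ : Fin 2 => (1 : O)
    have h0 := hf.constantCoeff_eq
    have hpair : ∀ a b : Fin 3, Intertwines f f (φ.subst ![MvPowerSeries.X a, MvPowerSeries.X b] :
        MvPowerSeries (Fin 3) O) := fun a b => hφ.subst (Fin.forall_fin_two.2
      ⟨Intertwines.X h0 a, Intertwines.X h0 b⟩) h0 h0
    have hL : ∀ s : Fin 2, Intertwines f f ((![φ.subst ![MvPowerSeries.X 0, MvPowerSeries.X 1],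
        MvPowerSeries.X 2] : Fin 2 → MvPowerSeries (Fin 3) O) s) :=
      Fin.forall_fin_two.2 ⟨hpair 0 1, Intertwines.X h0 2⟩
    have hR : ∀ s : Fin 2, Intertwines f f ((![MvPowerSeries.X 0,
        φ.subst ![MvPowerSeries.X 1, MvPowerSeries.X 2]] : Fin 2 → MvPowerSeries (Fin 3) O) s) :=
      Fin.forall_fin_two.2 ⟨Intertwines.X h0 0, hpair 1 2⟩
    refine Intertwines.ext hO hf hf (hφ.subst hL h0 h0) (hφ.subst hR h0 h0) fun i => ?_
    rw [coeff_single_subst fun s => (hL s).1, coeff_single_subst fun s => (hR s).1]
    simp only [Fin.sum_univ_two, φ, coeff_intertwiner, one_mul, Matrix.cons_val_zero,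
      Matrix.cons_val_one]
    rw [coeff_single_subst (by simp [Fin.forall_fin_two]),
      coeff_single_subst (by simp [Fin.forall_fin_two])]
    simp only [Fin.sum_univ_two, coeff_intertwiner, one_mul, Matrix.cons_val_zero,
      Matrix.cons_val_one]
    abel

instance : (law hO hf).IsComm where
  comm := by
    refine Intertwines.ext hO hf hf (intertwines_intertwiner hO hf hf _)
      ((intertwines_intertwiner hO hf hf _).subst (Fin.forall_fin_two.2
        ⟨Intertwines.X hf.constantCoeff_eq 1, Intertwines.X hf.constantCoeff_eq 0⟩)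
        hf.constantCoeff_eq hf.constantCoeff_eq) fun i => ?_
    rw [coeff_single_subst (by simp [Fin.forall_fin_two]), Fin.sum_univ_two]
    simp only [law, coeff_intertwiner, one_mul, Matrix.cons_val_zero, Matrix.cons_val_one]
    fin_cases i <;> simp [coeff_index_single_X]

include hO hf in
/-- Uniqueness: `f` is an endomorphism of no other formal group law. -/
theorem eq_law (G : FormalGroup O)
    (hG : PowerSeries.subst G.toPowerSeries f = G.toPowerSeries.subst (atVars f)) :
    G = law hO hf :=
  FormalGroup.ext (eq_intertwiner hO hf hf ⟨G.zero_constantCoeff, hG⟩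
    (Fin.forall_fin_two.2 ⟨G.lin_coeff_X, G.lin_coeff_Y⟩))

/-- The homomorphism with derivative `a`. -/
def scalarHom (a : O) : PowerSeries O := intertwiner hO hf hg fun _ : Unit => a

theorem constantCoeff_scalarHom (a : O) : (scalarHom hO hf hg a).constantCoeff = 0 :=
  (intertwines_intertwiner hO hf hg _).1

theorem coeff_one_scalarHom (a : O) : (scalarHom hO hf hg a).coeff 1 = a :=
  coeff_intertwiner hO hf hg (fun _ : Unit => a) ()

omit [Finite σ] [Finite τ] in
theorem atVars_unit (g : PowerSeries O) : (atVars g : Unit → MvPowerSeries Unit O) = fun _ => g :=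
  funext fun _ => by
    show PowerSeries.subst PowerSeries.X g = g
    rw [← PowerSeries.map_algebraMap_eq_subst_X, Algebra.algebraMap_self, PowerSeries.map_id]
    rfl

theorem scalarHom_comm (a : O) :
    PowerSeries.subst (scalarHom hO hf hg a) f = PowerSeries.subst g (scalarHom hO hf hg a) := by
  have h := (intertwines_intertwiner hO hf hg fun _ : Unit => a).2
  rwa [atVars_unit] at h

/-- The scalar homomorphism at a series which intertwines. -/
theorem intertwines_scalarHom_subst (a : O) {φ : MvPowerSeries τ O} (hh : h.constantCoeff = 0)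
    (hφ : Intertwines g h φ) : Intertwines f h (PowerSeries.subst φ (scalarHom hO hf hg a)) :=
  (intertwines_intertwiner hO hf hg fun _ : Unit => a).subst (fun _ => hφ) hg.constantCoeff_eq hh

omit [Finite σ] [Finite τ] in
theorem coeff_single_scalarHom_subst (a : O) {φ : MvPowerSeries τ O} (hφ : φ.constantCoeff = 0)
    (t : τ) : coeff (single t 1) (PowerSeries.subst φ (scalarHom hO hf hg a)) =
      a * coeff (single t 1) φ := by
  rw [PowerSeries.subst, coeff_single_subst fun _ => hφ, Fintype.sum_unique, scalarHom,
    coeff_intertwiner]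

/-- `[a]` is a homomorphism of formal group laws. -/
theorem scalarHom_law (a : O) :
    (law hO hf).toPowerSeries.subst
        (atVars (σ := Fin 2) (scalarHom hO hf hg a)) =
      PowerSeries.subst (law hO hg).toPowerSeries (scalarHom hO hf hg a) := by
  have hX : ∀ i : Fin 2, Intertwines f g (atVars (scalarHom hO hf hg a) i) := fun i =>
    intertwines_scalarHom_subst hO hf hg a hg.constantCoeff_eq
      (Intertwines.X hg.constantCoeff_eq i)
  refine Intertwines.ext hO hf hg ((intertwines_intertwiner hO hf hf _).subst hX
    hf.constantCoeff_eq hg.constantCoeff_eq) (intertwines_scalarHom_subst hO hf hg a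
      hg.constantCoeff_eq (intertwines_intertwiner hO hg hg _)) fun i => ?_
  classical
  rw [coeff_single_scalarHom_subst hO hf hg a (law hO hg).zero_constantCoeff,
    coeff_single_subst fun s => (hX s).1, Fin.sum_univ_two]
  simp only [law, coeff_intertwiner, atVars, one_mul, mul_one]
  rw [coeff_single_scalarHom_subst hO hf hg a (constantCoeff_X 0),
    coeff_single_scalarHom_subst hO hf hg a (constantCoeff_X 1)]
  fin_cases i <;> simp [coeff_index_single_X]

/-- `[a + b] = [a] + [b]` for the law of `f`. -/
theorem scalarHom_add (a b : O) :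
    scalarHom hO hf hg (a + b) =
      (law hO hf).toPowerSeries.subst ![scalarHom hO hf hg a, scalarHom hO hf hg b] := by
  have hab : ∀ s : Fin 2, Intertwines f g
      ((![scalarHom hO hf hg a, scalarHom hO hf hg b] :
        Fin 2 → MvPowerSeries Unit O) s) :=
    Fin.forall_fin_two.2 ⟨intertwines_intertwiner hO hf hg _, intertwines_intertwiner hO hf hg _⟩
  refine (eq_intertwiner hO hf hg ((intertwines_intertwiner hO hf hf _).subst hab
    hf.constantCoeff_eq hg.constantCoeff_eq) fun i => ?_).symm
  rw [coeff_single_subst fun s => (hab s).1, Fin.sum_univ_two]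
  simp [scalarHom, coeff_intertwiner]

/-- `[a * b] = [a] ∘ [b]`. -/
theorem scalarHom_mul (hh : IsLTSeries π q h) (a b : O) :
    scalarHom hO hf hh (a * b) =
      PowerSeries.subst (scalarHom hO hg hh b) (scalarHom hO hf hg a) := by
  refine (eq_intertwiner hO hf hh (intertwines_scalarHom_subst hO hf hg a hh.constantCoeff_eq
    (intertwines_intertwiner hO hg hh fun _ : Unit => b)) fun i => ?_).symm
  rw [coeff_single_scalarHom_subst hO hf hg a (intertwines_intertwiner hO hg hh _).1,
    coeff_intertwiner]

/-- `[1]` is the identity. -/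
theorem scalarHom_one : scalarHom hO hf hf 1 = PowerSeries.X :=
  (eq_intertwiner hO hf hf (Intertwines.X hf.constantCoeff_eq ())
    fun _ => by simp [coeff_index_single_self_X]).symm

/-- `[π] = f`. -/
theorem scalarHom_uniformizer : scalarHom hO hf hf π = f :=
  (eq_intertwiner hO hf hf (φ := f) ⟨hf.constantCoeff_eq, by rw [atVars_unit]; rfl⟩
    fun _ => hf.coeff_one_eq).symm

theorem scalarHom_injective : Function.Injective (scalarHom hO hf hg) := fun a b hab => by
  rw [← coeff_one_scalarHom hO hf hg a, hab, coeff_one_scalarHom]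

end Fermat.Agent.LubinTate
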